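/-
S29 row, piece `Orb` (helper449): a nonzero smooth `F[G_ℚ]`-module contains a nonzero
finite-dimensional stable subspace on which an open subgroup acts trivially.
Statement `exists_finite_stable_submodule` has EXACTLY the type of the row skeleton.
-/
import Fermat.Agent.S29.Defs

set_option autoImplicit false

namespace Fermat.Agent.S29.H449

theorem Orb_isAlgebraic : Algebra.IsAlgebraic ℚ (AlgebraicClosure ℚ) :=
  AlgebraicClosure.isAlgebraic ℚ

theorem Orb_normal : Normal ℚ (AlgebraicClosure ℚ) := by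
  have := Orb_isAlgebraic
  have : IsAlgClosure ℚ (AlgebraicClosure ℚ) := ⟨inferInstance, inferInstance⟩
  exact IsAlgClosure.normal ℚ (AlgebraicClosure ℚ)

/-- A finite-dimensional subfield of `ℚ̄` is contained in a finite-dimensional subfield which is
stable under `G_ℚ`. -/
theorem Orb_exists_normal (L₀ : IntermediateField ℚ (AlgebraicClosure ℚ))
    (h₀ : FiniteDimensional ℚ L₀) :
    ∃ L : IntermediateField ℚ (AlgebraicClosure ℚ), FiniteDimensional ℚ L ∧ L₀ ≤ L ∧
      ∀ (σ : GQ) (y : AlgebraicClosure ℚ), y ∈ L → σ y ∈ L := by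
  have := Orb_isAlgebraic
  have := Orb_normal
  have := h₀
  refine ⟨IntermediateField.normalClosure ℚ L₀ (AlgebraicClosure ℚ),
    normalClosure.is_finiteDimensional ℚ L₀ (AlgebraicClosure ℚ),
    IntermediateField.le_normalClosure L₀, ?_⟩
  intro σ y hy
  have hn : Normal ℚ (IntermediateField.normalClosure ℚ L₀ (AlgebraicClosure ℚ)) :=
    normalClosure.normal ℚ L₀ (AlgebraicClosure ℚ)
  have := (IntermediateField.normal_iff_forall_map_le'.1 hn) σ
  exact this ⟨y, hy, rfl⟩

theorem exists_finite_stable_submodule {F : Type} [Field F] {M : Type} [AddCommGroup M]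
    [Module F M] [Nontrivial M] (ρ : GQ →* Module.End F M) (hsm : IsSmoothRep ρ) :
    ∃ W : Submodule F M, W ≠ ⊥ ∧ Module.Finite F W ∧ (∀ σ : GQ, ∀ x ∈ W, ρ σ x ∈ W) ∧
      ∃ L : IntermediateField ℚ (AlgebraicClosure ℚ), FiniteDimensional ℚ L ∧
        ∀ σ : GQ, (∀ y ∈ L, σ y = y) → ∀ x ∈ W, ρ σ x = x := by
  obtain ⟨x, hx⟩ := exists_ne (0 : M)
  obtain ⟨L₀, hL₀, hfix₀⟩ := hsm x
  obtain ⟨L, hL, hle, hstab⟩ := Orb_exists_normal L₀ hL₀
  have := hL
  -- elements fixing `L` pointwise fix `x`
  have hfix : ∀ σ : GQ, (∀ y ∈ L, σ y = y) → ρ σ x = x :=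
    fun σ hσ => hfix₀ σ (fun y hy => hσ y (hle hy))
  -- `ρ σ x` depends only on the restriction of `σ` to `L`
  let res : GQ → (L →ₐ[ℚ] AlgebraicClosure ℚ) := fun σ => (σ : AlgebraicClosure ℚ →ₐ[ℚ]
    AlgebraicClosure ℚ).comp L.val
  have hres : ∀ σ τ : GQ, res σ = res τ → ρ σ x = ρ τ x := by
    intro σ τ h
    have h1 : ∀ y ∈ L, (σ⁻¹ * τ) y = y := by
      intro y hy
      have := congrArg (fun f : L →ₐ[ℚ] AlgebraicClosure ℚ => f ⟨y, hy⟩) h
      have h' : σ y = τ y := this
      rw [AlgEquiv.mul_apply, ← h']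
      exact σ.symm_apply_apply y
    have h2 := hfix _ h1
    have h3 : ρ τ x = ρ σ (ρ (σ⁻¹ * τ) x) := by
      rw [← Module.End.mul_apply, ← map_mul, mul_inv_cancel_left]
    rw [h3, h2]
  have hfin : (Set.range fun σ : GQ => ρ σ x).Finite := by
    have hft : Function.FactorsThrough (fun σ : GQ => ρ σ x) res := fun σ τ h => hres σ τ h
    have : (fun σ : GQ => ρ σ x) =
        (Function.extend res (fun σ : GQ => ρ σ x) (fun _ => (0 : M))) ∘ res :=
      (hft.extend_comp (fun _ => (0 : M))).symm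
    rw [this]
    exact (Set.finite_range _).subset (Set.range_comp_subset_range _ _)
  refine ⟨Submodule.span F (Set.range fun σ : GQ => ρ σ x), ?_, ?_, ?_, L, hL, ?_⟩
  · intro h
    have hxW : x ∈ Submodule.span F (Set.range fun σ : GQ => ρ σ x) :=
      Submodule.subset_span ⟨1, by simp⟩
    rw [h, Submodule.mem_bot] at hxW
    exact hx hxW
  · exact Module.Finite.span_of_finite F hfin
  · intro σ y hy
    induction hy using Submodule.span_induction with
    | mem z hz =>
      obtain ⟨τ, rfl⟩ := hz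
      apply Submodule.subset_span
      exact ⟨σ * τ, by simp [map_mul]⟩
    | zero => simp
    | add a b _ _ ha hb => rw [map_add]; exact add_mem ha hb
    | smul c a _ ha => rw [map_smul]; exact Submodule.smul_mem _ c ha
  · intro σ hσ y hy
    induction hy using Submodule.span_induction with
    | mem z hz =>
      obtain ⟨τ, rfl⟩ := hz
      have h1 : ∀ y ∈ L, (τ⁻¹ * σ * τ) y = y := by
        intro y hy
        rw [AlgEquiv.mul_apply, AlgEquiv.mul_apply, hσ _ (hstab τ y hy)]
        exact τ.symm_apply_apply y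
      have h2 := hfix _ h1
      have h3 : ρ σ (ρ τ x) = ρ τ (ρ (τ⁻¹ * σ * τ) x) := by
        rw [← Module.End.mul_apply, ← Module.End.mul_apply, ← map_mul, ← map_mul]
        congr 2
        group
      show ρ σ (ρ τ x) = ρ τ x
      rw [h3, h2]
    | zero => simp
    | add a b _ _ ha hb => rw [map_add, ha, hb]
    | smul c a _ ha => rw [map_smul, ha]

end Fermat.Agent.S29.H449
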